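import Fermat.Agent.Jac.Picard.Points

/-!
# The functor of classes of degree zero and its atlas
-/

set_option autoImplicit false

universe u

noncomputable section

open CategoryTheory CategoryTheory.Limits AlgebraicGeometry AlgebraicGeometry.RelPicard
  NeronModelInfra
  TensorProduct

namespace Fermat.Agent.Jac.CurveCover

variable {k : Type u} [Field k] [IsAlgClosed k] {C : Scheme.{u}} {c : C ⟶ Spec (CommRingCat.of k)}
  [IsProper c] [SmoothOfRelativeDimension 1 c] [IsIntegral C]
  {ε : SchemeHomOver (𝟙 (Spec (CommRingCat.of k))) c} {cov : CurveCover c ε}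

omit [IsAlgClosed k] [IsProper c] [SmoothOfRelativeDimension 1 c] [IsIntegral C] in
/-- Classes of degree zero are separated for open covers of the base. -/
theorem cls0_sep (cov : CurveCover c ε) {T : Scheme.{u}} {t : T ⟶ Spec (CommRingCat.of k)}
    {ι : Type u} (U : ι → T.Opens) (hU : (⨆ a, U a) = ⊤) (x y : Cls0 c ε t)
    (h : ∀ a, Cls0.map (openHom t (U a)) x = Cls0.map (openHom t (U a)) y) : x = y :=
  Subtype.ext (classes_eq_of_locally (Abel.affineRigid cov) U hU x.1 y.1
    fun a => congrArg Subtype.val (h a))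

/-- Compatible classes of degree zero on an open cover of the base glue. -/
theorem cls0_glue (cov : CurveCover c ε) {T : Scheme.{u}} {t : T ⟶ Spec (CommRingCat.of k)}
    {ι : Type u} (U : ι → T.Opens) (hU : (⨆ a, U a) = ⊤) (x : ∀ a, Cls0 c ε ((U a).ι ≫ t))
    (hx : ∀ (a b : ι) (T' : Scheme.{u}) (t' : T' ⟶ Spec (CommRingCat.of k))
      (h : SchemeHomOver t' ((U a).ι ≫ t)) (h' : SchemeHomOver t' ((U b).ι ≫ t)),
      h.1 ≫ (U a).ι = h'.1 ≫ (U b).ι → Cls0.map h (x a) = Cls0.map h' (x b)) :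
    ∃ y : Cls0 c ε t, ∀ a, Cls0.map (openHom t (U a)) y = x a := by
  obtain ⟨y, hy⟩ := exists_classes_glue (Abel.affineRigid cov) U hU (fun a => (x a).1)
    fun a b T' t' h h' hh => congrArg Subtype.val (hx a b T' t' h h' hh)
  induction y using Quotient.ind with
  | _ M =>
    refine ⟨Cls0.of M ?_, fun a => Subtype.ext (hy a)⟩
    refine (cov.fibrewiseAlgEquivZero_iff M).mpr fun K _ _ _ s => ?_
    obtain ⟨a, ha⟩ := TopologicalSpace.Opens.mem_iSup.mp
      (hU.ge (TopologicalSpace.Opens.mem_top (s.1.base default)))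
    have hrange : Set.range s.1.base ⊆ Set.range (U a).ι.base := by
      rw [Scheme.Opens.range_ι]
      rintro _ ⟨z, rfl⟩
      obtain rfl : z = default := Subsingleton.elim _ _
      exact ha
    let s' : SchemeHomOver (specT k K) ((U a).ι ≫ t) :=
      ⟨IsOpenImmersion.lift (U a).ι s.1 hrange, by
        rw [← Category.assoc, IsOpenImmersion.lift_fac, s.2]⟩
    have h : AlgZero c ε (RigidifiedLineBundle.classesMap (openHom t (U a)) (Quotient.mk _ M)) :=
      (hy a).symm ▸ (x a).2
    have h' := (cov.fibrewiseAlgEquivZero_iff (M.pullbackAlong (openHom t (U a)))).mp h K s'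
    refine (LB.deg_congr ((cov.sec_isomorphic_iff _ _ _ _).mp ⟨?_⟩)).trans h'
    exact (Scheme.Modules.pullbackCongr ((congrArg (baseChangeSnd c)
        (show s = postComp (openHom t (U a)) s' from
          Subtype.ext (IsOpenImmersion.lift_fac _ _ _).symm)).trans
          (baseChangeSnd_comp c (openHom t (U a)) s').symm)).app M.L ≪≫
      ((Scheme.Modules.pullbackComp _ _).app M.L).symm

namespace Chart0

variable (i : cov.Chart0)

omit [IsAlgClosed k] [IsProper c] [SmoothOfRelativeDimension 1 c] [IsIntegral C] in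
/-- A morphism to the base of a chart is determined by the class it pulls back. -/
theorem mono {T : Scheme.{u}} (t : T ⟶ Spec (CommRingCat.of k))
    (g g' : SchemeHomOver t (specT k i.chart.Rc))
    (h : Cls0.map g i.cls = Cls0.map g' i.cls) : g = g' := by
  refine Subtype.ext (T.affineCover.hom_ext _ _ fun a => ?_)
  obtain ⟨_, ha⟩ := exists_algebra_specT (R := _) (T.affineCover.f a ≫ t)
  let γ : SchemeHomOver (specT k _) t := ⟨T.affineCover.f a, ha⟩
  have h1 := congrArg (Cls0.map γ) h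
  rw [Cls0.map_map, Cls0.map_map] at h1
  obtain ⟨ψ, hψ⟩ := exists_eq_specMapOver
    (⟨T.affineCover.f a ≫ g.1, by rw [Category.assoc, g.2]; exact ha⟩ :
      SchemeHomOver (specT k _) (specT k i.chart.Rc))
  obtain ⟨ψ', hψ'⟩ := exists_eq_specMapOver
    (⟨T.affineCover.f a ≫ g'.1, by rw [Category.assoc, g'.2]; exact ha⟩ :
      SchemeHomOver (specT k _) (specT k i.chart.Rc))
  obtain rfl := i.mono_affine ψ ψ'
    ((Cls0.map_congr (congrArg Subtype.val hψ.symm) _).trans
      (h1.trans (Cls0.map_congr (congrArg Subtype.val hψ') _)))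
  exact congrArg Subtype.val (hψ.trans hψ'.symm)

/-- The part of the base where a class comes from the chart. -/
def locus {T : Scheme.{u}} {t : T ⟶ Spec (CommRingCat.of k)} (x : Cls0 c ε t) : T.Opens :=
  ⨆ V : {V : T.Opens // ∃ g : SchemeHomOver (V.ι ≫ t) (specT k i.chart.Rc),
    Cls0.map g i.cls = Cls0.map (openHom t V) x}, V.1

omit [IsAlgClosed k] [IsProper c] [SmoothOfRelativeDimension 1 c] [IsIntegral C] in
theorem exists_of_range_subset {T T' : Scheme.{u}} {t : T ⟶ Spec (CommRingCat.of k)}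
    {t' : T' ⟶ Spec (CommRingCat.of k)} (x : Cls0 c ε t) (h : SchemeHomOver t' t)
    (hh : Set.range h.1.base ⊆ i.locus x) :
    ∃ g : SchemeHomOver t' (specT k i.chart.Rc), Cls0.map g i.cls = Cls0.map h x := by
  let J := {V : T.Opens // ∃ g : SchemeHomOver (V.ι ≫ t) (specT k i.chart.Rc),
    Cls0.map g i.cls = Cls0.map (openHom t V) x}
  choose gV hgV using fun V : J => V.2
  let U : J → T'.Opens := fun V => h.1 ⁻¹ᵁ V.1
  have hU : (⨆ V, U V) = ⊤ := top_unique fun q _ => by
    obtain ⟨V, hV⟩ := TopologicalSpace.Opens.mem_iSup.mp (hh ⟨q, rfl⟩)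
    exact TopologicalSpace.Opens.mem_iSup.mpr ⟨V, hV⟩
  let 𝒰 := Scheme.openCoverOfIsOpenCover _ U hU
  let hV : ∀ V : J, SchemeHomOver ((U V).ι ≫ t') (V.1.ι ≫ t) := fun V =>
    ⟨h.1 ∣_ V.1, by rw [← Category.assoc, morphismRestrict_ι, Category.assoc, h.2]⟩
  have hgx : ∀ V : J, Cls0.map (homComp (hV V) (gV V)) i.cls =
      Cls0.map (openHom t' (U V)) (Cls0.map h x) := fun V => by
    rw [Cls0.map_comp, hgV, Cls0.map_map, Cls0.map_map]
    exact Cls0.map_congr (morphismRestrict_ι _ _) x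
  have hcomp : ∀ V V' : J, pullback.fst (U V).ι (U V').ι ≫ (homComp (hV V) (gV V)).1 =
      pullback.snd (U V).ι (U V').ι ≫ (homComp (hV V') (gV V')).1 := by
    intro V V'
    refine congrArg Subtype.val (i.mono (pullback.fst (U V).ι (U V').ι ≫ (U V).ι ≫ t')
      ⟨_, by rw [Category.assoc, (homComp (hV V) (gV V)).2]⟩
      ⟨_, by rw [Category.assoc, (homComp (hV V') (gV V')).2, ← Category.assoc,
        ← pullback.condition, Category.assoc]⟩ ?_)
    have h1 := congrArg (Cls0.map (⟨pullback.fst (U V).ι (U V').ι, rfl⟩ :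
      SchemeHomOver (pullback.fst (U V).ι (U V').ι ≫ (U V).ι ≫ t') ((U V).ι ≫ t'))) (hgx V)
    have h2 := congrArg (Cls0.map (⟨pullback.snd (U V).ι (U V').ι, by
      rw [← Category.assoc, ← pullback.condition, Category.assoc]⟩ :
      SchemeHomOver (pullback.fst (U V).ι (U V').ι ≫ (U V).ι ≫ t') ((U V').ι ≫ t'))) (hgx V')
    simp only [Cls0.map_map] at h1 h2
    refine h1.trans ((Cls0.map_congr ?_ x).trans h2.symm)
    show pullback.fst (U V).ι (U V').ι ≫ (U V).ι ≫ h.1 = pullback.snd (U V).ι (U V').ι ≫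
      (U V').ι ≫ h.1
    rw [← Category.assoc, ← Category.assoc, pullback.condition]
  let G := 𝒰.glueMorphisms (fun V : J => (homComp (hV V) (gV V)).1) (fun V V' => hcomp V V')
  have hG : ∀ V : J, (U V).ι ≫ G = (homComp (hV V) (gV V)).1 := fun V => 𝒰.ι_glueMorphisms _ _ V
  have hGt : G ≫ specT k i.chart.Rc = t' := 𝒰.hom_ext _ _ fun V : J => by
    show (U V).ι ≫ G ≫ _ = (U V).ι ≫ t'
    rw [← Category.assoc, hG, (homComp (hV V) (gV V)).2]
  refine ⟨⟨G, hGt⟩, cov.cls0_sep U hU _ _ fun V => ?_⟩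
  rw [← hgx V, Cls0.map_map]
  exact Cls0.map_congr (hG V) i.cls

theorem range_subset_of_exists {T T' : Scheme.{u}} {t : T ⟶ Spec (CommRingCat.of k)}
    {t' : T' ⟶ Spec (CommRingCat.of k)} (x : Cls0 c ε t) (h : SchemeHomOver t' t)
    (g : SchemeHomOver t' (specT k i.chart.Rc)) (hg : Cls0.map g i.cls = Cls0.map h x) :
    Set.range h.1.base ⊆ i.locus x := by
  rintro _ ⟨q, rfl⟩
  -- affine neighbourhoods
  obtain ⟨R, jR, hjR, hp, -⟩ := Scheme.exists_affine_mem_range_and_range_subset
    (TopologicalSpace.Opens.mem_top (h.1.base q))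
  obtain ⟨R', jR', hjR', hq, hsub⟩ := Scheme.exists_affine_mem_range_and_range_subset
    (U := h.1 ⁻¹ᵁ jR.opensRange) (x := q) hp
  obtain ⟨_, hR⟩ := exists_algebra_specT (R := R) (jR ≫ t)
  obtain ⟨_, hR'⟩ := exists_algebra_specT (R := R') (jR' ≫ t')
  have hrange : Set.range (jR' ≫ h.1).base ⊆ Set.range jR.base := by
    rintro _ ⟨z, rfl⟩
    exact hsub ⟨z, rfl⟩
  let f := IsOpenImmersion.lift jR (jR' ≫ h.1) hrange
  have hf : f ≫ jR = jR' ≫ h.1 := IsOpenImmersion.lift_fac _ _ _
  obtain ⟨φ, hφ⟩ := exists_eq_specMapOver (⟨f, by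
    rw [← hR, ← Category.assoc, hf, Category.assoc, h.2, hR']⟩ :
      SchemeHomOver (specT k R') (specT k R))
  obtain ⟨ψ, hψ⟩ := exists_eq_specMapOver (⟨jR' ≫ g.1, by
    rw [Category.assoc, g.2, hR']⟩ : SchemeHomOver (specT k R') (specT k i.chart.Rc))
  obtain ⟨W, hW, hW'⟩ := i.exists_locus (Cls0.map (⟨jR, hR⟩ : SchemeHomOver (specT k R) t) x)
  have heq : Cls0.map (specMapOver ψ) i.cls =
      Cls0.map (specMapOver φ) (Cls0.map (⟨jR, hR⟩ : SchemeHomOver (specT k R) t) x) := by
    rw [← hψ, ← hφ, Cls0.map_map]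
    have h1 := congrArg (Cls0.map (⟨jR', hR'⟩ : SchemeHomOver (specT k R') t')) hg
    rw [Cls0.map_map, Cls0.map_map] at h1
    exact h1.trans (Cls0.map_congr hf.symm x)
  obtain ⟨z, hz⟩ := hq
  have hpW : f.base z ∈ W := by
    have : f = Spec.map (CommRingCat.ofHom (φ : (R : Type u) →+* R')) := congrArg Subtype.val hφ
    rw [this]
    exact hW R' φ ψ heq ⟨z, rfl⟩
  obtain ⟨r, hr, χ, hχ⟩ := hW' (f.base z) hpW
  let loc := IsScalarTower.toAlgHom k R (Localization.Away r)
  let jr : Spec (CommRingCat.of (Localization.Away r)) ⟶ T := (specMapOver loc).1 ≫ jR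
  have : IsOpenImmersion (specMapOver loc).1 :=
    IsOpenImmersion.of_isLocalization (S := Localization.Away r) r
  have hjr : jr ≫ t = specT k (Localization.Away r) := by
    rw [Category.assoc, hR]
    exact (specMapOver loc).2
  let e : Spec (CommRingCat.of (Localization.Away r)) ≅ jr.opensRange.toScheme :=
    IsOpenImmersion.isoOfRangeEq jr jr.opensRange.ι (by rw [Scheme.Opens.range_ι]; rfl)
  have he : e.inv ≫ jr = jr.opensRange.ι := IsOpenImmersion.isoOfRangeEq_inv_fac _ _ _
  refine TopologicalSpace.Opens.mem_iSup.mpr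
    ⟨⟨jr.opensRange, ⟨e.inv ≫ (specMapOver χ).1, ?_⟩, ?_⟩, ?_⟩
  · exact ((Category.assoc _ _ _).trans
      (congrArg (e.inv ≫ ·) ((specMapOver χ).2.trans hjr.symm))).trans
      ((Category.assoc _ _ _).symm.trans (congrArg (· ≫ t) he))
  · have h1 := congrArg (Cls0.map (⟨e.inv,
      (congrArg (e.inv ≫ ·) hjr.symm).trans ((Category.assoc _ _ _).symm.trans
      (congrArg (· ≫ t) he))⟩ :
      SchemeHomOver (jr.opensRange.ι ≫ t) (specT k (Localization.Away r)))) hχ
    rw [Cls0.map_map, Cls0.map_map, Cls0.map_map] at h1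
    exact h1.trans (Cls0.map_congr he x)
  · show h.1.base q ∈ jr.opensRange
    have hmem : f.base z ∈ Set.range (specMapOver loc).1.base := by
      show f.base z ∈ Set.range (PrimeSpectrum.comap (algebraMap R (Localization.Away r)))
      rw [PrimeSpectrum.localization_away_comap_range (Localization.Away r) r]
      exact hr
    obtain ⟨y, hy⟩ := hmem
    refine ⟨y, ?_⟩
    show jR.base ((specMapOver loc).1.base y) = _
    rw [hy, ← hz]
    exact congr($(hf).base z)

theorem range_subset_locus_iff {T T' : Scheme.{u}} {t : T ⟶ Spec (CommRingCat.of k)}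
    {t' : T' ⟶ Spec (CommRingCat.of k)} (x : Cls0 c ε t) (h : SchemeHomOver t' t) :
    Set.range h.1.base ⊆ i.locus x ↔
      ∃ g : SchemeHomOver t' (specT k i.chart.Rc), Cls0.map g i.cls = Cls0.map h x :=
  ⟨i.exists_of_range_subset x h, fun ⟨g, hg⟩ => i.range_subset_of_exists x h g hg⟩

end Chart0

/-- The atlas of the classes of degree zero. -/
def picAtlas (cov : CurveCover c ε) : Atlas (Spec (CommRingCat.of k)) where
  G t := Cls0 c ε t
  map g x := Cls0.map g x
  map_id x := Cls0.map_id x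
  map_comp h g x := Cls0.map_comp h g x
  sep U hU x y h := cov.cls0_sep U hU x y h
  glue U hU x hx := cov.cls0_glue U hU x hx
  ι := cov.exists_chart0.choose
  X a := Spec (CommRingCat.of (cov.exists_chart0.choose_spec.choose a).chart.Rc)
  x a := specT k (cov.exists_chart0.choose_spec.choose a).chart.Rc
  ξ a := (cov.exists_chart0.choose_spec.choose a).cls
  mono a _ t g g' h := (cov.exists_chart0.choose_spec.choose a).mono t g g' h
  isOpen a _ _ ζ := ⟨(cov.exists_chart0.choose_spec.choose a).locus ζ,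
    fun _ _ h => (cov.exists_chart0.choose_spec.choose a).range_subset_locus_iff ζ h⟩
  cover {T} t ζ p := by
    let K : Type u := AlgebraicClosure (T.residueField p)
    let s : Spec (CommRingCat.of K) ⟶ T :=
      Spec.map (CommRingCat.ofHom (algebraMap (T.residueField p) K)) ≫ T.fromSpecResidueField p
    obtain ⟨_, hs⟩ := exists_algebra_specT (R := K) (s ≫ t)
    let sh : SchemeHomOver (specT k K) t := ⟨s, hs⟩
    obtain ⟨a, ψ, hψ⟩ := cov.exists_chart0.choose_spec.choose_spec K (Cls0.map sh ζ)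
    have hmem := ((cov.exists_chart0.choose_spec.choose a).range_subset_locus_iff ζ sh).mpr
      ⟨specMapOver ψ, hψ⟩ ⟨default, rfl⟩
    have hp : sh.1.base default = p := Scheme.fromSpecResidueField_apply p _
    rw [hp] at hmem
    obtain ⟨⟨V, g, hg⟩, hpV⟩ := TopologicalSpace.Opens.mem_iSup.mp hmem
    exact ⟨a, V, g, hpV, hg⟩

end Fermat.Agent.Jac.CurveCover

end
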