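import Fermat.Agent.Jac.Chart
import Fermat.Agent.Jac.Scheme.Abel

/-!
# Classes of degree zero and their values on affine schemes
-/

set_option autoImplicit false

universe u

noncomputable section

open CategoryTheory CategoryTheory.Limits AlgebraicGeometry AlgebraicGeometry.RelPicard
  NeronModelInfra
  TensorProduct

namespace Fermat.Agent.Jac

/-- Every morphism between affine schemes over `k` comes from an algebra structure. -/
theorem exists_algebra_specT {k : Type u} [Field k] {R : Type u} [CommRing R]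
    (t : Spec (CommRingCat.of R) ⟶ Spec (CommRingCat.of k)) :
    ∃ a : Algebra k R, t = @specT k _ R _ a := by
  obtain ⟨φ, rfl⟩ := Spec.map_surjective t
  exact ⟨φ.hom.toAlgebra, rfl⟩

variable {k : Type u} [Field k] {C : Scheme.{u}} {c : C ⟶ Spec (CommRingCat.of k)}
  {ε : SchemeHomOver (𝟙 (Spec (CommRingCat.of k))) c}

variable (c ε) in
/-- A class is algebraically equivalent to zero on every fibre. -/
def AlgZero {T : Scheme.{u}} {t : T ⟶ Spec (CommRingCat.of k)}
    (x : RigidifiedLineBundle.Classes c ε t) : Prop :=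
  Quotient.lift (fun M => FibrewiseAlgEquivZero M)
    (fun _ _ h => propext ⟨fun hM => hM.congr h, fun hM => hM.congr ⟨h.some.symm⟩⟩) x

theorem algZero_map {T T' : Scheme.{u}} {t : T ⟶ Spec (CommRingCat.of k)}
    {t' : T' ⟶ Spec (CommRingCat.of k)} (g : SchemeHomOver t' t)
    {x : RigidifiedLineBundle.Classes c ε t} (hx : AlgZero c ε x) :
    AlgZero c ε (RigidifiedLineBundle.classesMap g x) := by
  induction x using Quotient.ind with
  | _ M => exact FibrewiseAlgEquivZero.pullback g hx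

variable (c ε) in
/-- The classes of degree zero. -/
def Cls0 {T : Scheme.{u}} (t : T ⟶ Spec (CommRingCat.of k)) : Type (u + 1) :=
  {x : RigidifiedLineBundle.Classes c ε t // AlgZero c ε x}

/-- Pull-back of classes of degree zero. -/
def Cls0.map {T T' : Scheme.{u}} {t : T ⟶ Spec (CommRingCat.of k)}
    {t' : T' ⟶ Spec (CommRingCat.of k)} (g : SchemeHomOver t' t) (x : Cls0 c ε t) : Cls0 c ε t' :=
  ⟨RigidifiedLineBundle.classesMap g x.1, algZero_map g x.2⟩

/-- The class of a bundle. -/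
def Cls0.of {T : Scheme.{u}} {t : T ⟶ Spec (CommRingCat.of k)} (M : RigidifiedLineBundle c ε t)
    (hM : FibrewiseAlgEquivZero M) : Cls0 c ε t :=
  ⟨Quotient.mk _ M, hM⟩

/-- A class of degree zero has a rigidified representative, fibrewise equivalent to zero. -/
theorem Cls0.exists_rep {T : Scheme.{u}} {t : T ⟶ Spec (CommRingCat.of k)} (x : Cls0 c ε t) :
    ∃ (M : RigidifiedLineBundle c ε t) (hM : FibrewiseAlgEquivZero M), x = Cls0.of M hM := by
  obtain ⟨x, hx⟩ := x
  induction x using Quotient.ind with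
  | _ M => exact ⟨M, hx, rfl⟩

/-- Classes agree exactly when the bundles are isomorphic. -/
theorem Cls0.of_eq_iff {T : Scheme.{u}} {t : T ⟶ Spec (CommRingCat.of k)}
    {M M' : RigidifiedLineBundle c ε t} {hM : FibrewiseAlgEquivZero M}
    {hM' : FibrewiseAlgEquivZero M'} :
    Cls0.of M hM = Cls0.of M' hM' ↔ Nonempty (M.L ≅ M'.L) :=
  ⟨fun h => Quotient.exact (congrArg Subtype.val h), fun h => Subtype.ext (Quotient.sound h)⟩

theorem Cls0.map_of {T T' : Scheme.{u}} {t : T ⟶ Spec (CommRingCat.of k)}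
    {t' : T' ⟶ Spec (CommRingCat.of k)} (g : SchemeHomOver t' t) (M : RigidifiedLineBundle c ε t)
    (hM : FibrewiseAlgEquivZero M) :
    Cls0.map g (Cls0.of M hM) = Cls0.of (M.pullbackAlong g) (FibrewiseAlgEquivZero.pullback g hM) :=
  rfl

/-- Pull-back along the identity is the identity on classes. -/
theorem Cls0.map_id {T : Scheme.{u}} {t : T ⟶ Spec (CommRingCat.of k)} (x : Cls0 c ε t) :
    Cls0.map (⟨𝟙 T, Category.id_comp t⟩ : SchemeHomOver t t) x = x := by
  obtain ⟨M, hM, rfl⟩ := x.exists_rep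
  exact Cls0.of_eq_iff.mpr
    ⟨(Scheme.Modules.pullbackCongr (baseChangeSnd_id c t)).app M.L ≪≫
      (Scheme.Modules.pullbackId (pullback c t)).app M.L⟩

/-- Pull-back of classes is compatible with composition. -/
theorem Cls0.map_comp {T T' T'' : Scheme.{u}} {t : T ⟶ Spec (CommRingCat.of k)}
    {t' : T' ⟶ Spec (CommRingCat.of k)} {t'' : T'' ⟶ Spec (CommRingCat.of k)}
    (h : SchemeHomOver t'' t') (g : SchemeHomOver t' t) (x : Cls0 c ε t) :
    Cls0.map (homComp h g) x = Cls0.map h (Cls0.map g x) := by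
  obtain ⟨M, hM, rfl⟩ := x.exists_rep
  exact Cls0.of_eq_iff.mpr
    ⟨(Scheme.Modules.pullbackCongr (baseChangeSnd_comp c g h).symm).app M.L ≪≫
      ((Scheme.Modules.pullbackComp _ _).app M.L).symm⟩

/-- Pull-back of classes of degree zero is functorial. -/
theorem Cls0.map_map {T T' T'' : Scheme.{u}} {t : T ⟶ Spec (CommRingCat.of k)}
    {t' : T' ⟶ Spec (CommRingCat.of k)} {t'' : T'' ⟶ Spec (CommRingCat.of k)}
    (h : SchemeHomOver t'' t') (g : SchemeHomOver t' t) (x : Cls0 c ε t) :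
    Cls0.map h (Cls0.map g x) =
      Cls0.map ⟨h.1 ≫ g.1, by rw [Category.assoc, g.2, h.2]⟩ x :=
  (Cls0.map_comp h g x).symm

/-- Pull-back of classes of degree zero depends only on the morphism of schemes. -/
theorem Cls0.map_congr {T T' : Scheme.{u}} {t : T ⟶ Spec (CommRingCat.of k)}
    {t' : T' ⟶ Spec (CommRingCat.of k)} {g g' : SchemeHomOver t' t} (h : g.1 = g'.1)
    (x : Cls0 c ε t) : Cls0.map g x = Cls0.map g' x := by
  rw [Subtype.ext h]

namespace CurveCover

variable [IsAlgClosed k] [IsProper c] [SmoothOfRelativeDimension 1 c] [IsIntegral C]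
  (cov : CurveCover c ε)

/-- The algebraic bundle of a rigidified bundle. -/
def secOf {R : Type u} [CommRing R] [Algebra k R] (M : RigidifiedLineBundle c ε (specT k R)) :
    LB cov.D R :=
  cov.sec M.L M.isInvertible

omit [IsAlgClosed k] [IsProper c] [SmoothOfRelativeDimension 1 c] [IsIntegral C] in
theorem evTrivial_secOf {R : Type u} [CommRing R] [Algebra k R]
    (M : RigidifiedLineBundle c ε (specT k R)) : (cov.secOf M).EvTrivial :=
  (cov.rigidified_iff M.L M.isInvertible).mp M.rigidified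

theorem fibreDegZero_secOf {R : Type u} [CommRing R] [Algebra k R]
    {M : RigidifiedLineBundle c ε (specT k R)} (hM : FibrewiseAlgEquivZero M) :
    (cov.secOf M).FibreDegZero :=
  (cov.degZero_spec_iff M.L M.isInvertible).mp ((cov.fibrewiseAlgEquivZero_iff M).mp hM)

omit [IsAlgClosed k] [IsProper c] [SmoothOfRelativeDimension 1 c] [IsIntegral C] in
theorem map_of_eq_iff {R R' : Type u} [CommRing R] [Algebra k R] [CommRing R'] [Algebra k R']
    (φ : R →ₐ[k] R') {M : RigidifiedLineBundle c ε (specT k R)} {hM : FibrewiseAlgEquivZero M}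
    {M' : RigidifiedLineBundle c ε (specT k R')} {hM' : FibrewiseAlgEquivZero M'} :
    Cls0.map (specMapOver φ) (Cls0.of M hM) = Cls0.of M' hM' ↔
      Nonempty (LB.Mor φ (cov.secOf M) (cov.secOf M')) := by
  rw [Cls0.map_of, Cls0.of_eq_iff,
    cov.sec_isomorphic_iff _ _ (M.pullbackAlong (specMapOver φ)).isInvertible
    M'.isInvertible]
  exact ⟨fun ⟨e⟩ => ⟨(cov.secPullback φ M.L M.isInvertible).transIso e⟩,
    fun ⟨g⟩ => ⟨(cov.secPullback φ M.L M.isInvertible).targetIso g⟩⟩

/-- A bundle which is trivial along the point and of degree zero gives a class. -/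
theorem exists_of_bundle {R : Type u} [CommRing R] [Algebra k R] (N : LB cov.D R)
    (he : N.EvTrivial) (hd : N.FibreDegZero) :
    ∃ (M : RigidifiedLineBundle c ε (specT k R)) (_ : FibrewiseAlgEquivZero M),
      (cov.secOf M).Isomorphic N := by
  obtain ⟨L, hL, ⟨e⟩⟩ := cov.exists_sec N
  have he' : (cov.sec L hL).EvTrivial := LB.EvTrivial.congr ⟨e.symm⟩ he
  have hd' : (cov.sec L hL).FibreDegZero :=
    LB.FibreDegZero.map (LB.Mor.isoTrans e.symm (LB.Mor.id (cov.sec L hL))) hd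
  refine ⟨⟨L, hL, (cov.rigidified_iff L hL).mpr he'⟩, ?_, ⟨e⟩⟩
  exact (cov.fibrewiseAlgEquivZero_iff _).mpr ((cov.degZero_spec_iff L hL).mpr hd')

/-- The charts, with their universal classes. -/
structure Chart0 : Type (u + 1) where
  /-- the chart -/
  chart : ChartRing cov.D
  /-- its universal bundle as a sheaf -/
  M : RigidifiedLineBundle c ε (specT k chart.Rc)
  algZero : FibrewiseAlgEquivZero M
  isUniv : (cov.secOf M).Isomorphic chart.univ

/-- The universal class of a chart. -/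
def Chart0.cls {cov : CurveCover c ε} (i : cov.Chart0) : Cls0 c ε (specT k i.chart.Rc) :=
  Cls0.of i.M i.algZero

omit [IsAlgClosed k] [IsProper c] [SmoothOfRelativeDimension 1 c] [IsIntegral C] in
theorem Chart0.map_cls_eq_iff {cov : CurveCover c ε} (i : cov.Chart0) {R : Type u} [CommRing R]
    [Algebra k R] (ψ : i.chart.Rc →ₐ[k] R) {M : RigidifiedLineBundle c ε (specT k R)}
    {hM : FibrewiseAlgEquivZero M} :
    Cls0.map (specMapOver ψ) i.cls = Cls0.of M hM ↔
      Nonempty (LB.Mor ψ i.chart.univ (cov.secOf M)) := by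
  rw [Chart0.cls, cov.map_of_eq_iff]
  exact ⟨fun ⟨g⟩ => ⟨g.isoTrans i.isUniv.some.symm⟩, fun ⟨g⟩ => ⟨g.isoTrans i.isUniv.some⟩⟩

omit [IsAlgClosed k] [IsProper c] [SmoothOfRelativeDimension 1 c] [IsIntegral C] in
theorem Chart0.mono_affine {cov : CurveCover c ε} (i : cov.Chart0) {R : Type u} [CommRing R]
    [Algebra k R] (ψ ψ' : i.chart.Rc →ₐ[k] R)
    (h : Cls0.map (specMapOver ψ) i.cls = Cls0.map (specMapOver ψ') i.cls) : ψ = ψ' := by
  obtain ⟨M, hM, e⟩ := (Cls0.map (specMapOver ψ) i.cls).exists_rep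
  obtain ⟨g⟩ := (i.map_cls_eq_iff ψ).mp e
  obtain ⟨g'⟩ := (i.map_cls_eq_iff ψ').mp (h.symm.trans e)
  exact i.chart.mono R ψ ψ' _ _ g g' (LB.Isomorphic.refl _)

theorem Chart0.exists_locus {cov : CurveCover c ε} (i : cov.Chart0) {R : Type u} [CommRing R]
    [Algebra k R] (x : Cls0 c ε (specT k R)) :
    ∃ W : TopologicalSpace.Opens (PrimeSpectrum R),
      (∀ (R' : Type u) [CommRing R'] [Algebra k R'] (φ : R →ₐ[k] R') (ψ : i.chart.Rc →ₐ[k] R'),
        Cls0.map (specMapOver ψ) i.cls = Cls0.map (specMapOver φ) x →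
          Set.range (PrimeSpectrum.comap φ.toRingHom) ⊆ W) ∧
      ∀ p ∈ W, ∃ r : R, r ∉ p.asIdeal ∧ ∃ ψ : i.chart.Rc →ₐ[k] Localization.Away r,
        Cls0.map (specMapOver ψ) i.cls =
          Cls0.map (specMapOver (IsScalarTower.toAlgHom k R (Localization.Away r))) x := by
  obtain ⟨M, hM, rfl⟩ := x.exists_rep
  obtain ⟨W, hW, hW'⟩ := i.chart.exists_locus R (cov.secOf M) (cov.evTrivial_secOf M)
    (cov.fibreDegZero_secOf hM)
  refine ⟨W, fun R' _ _ φ ψ h => ?_, fun p hp => ?_⟩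
  · obtain ⟨M', hM', e⟩ := (Cls0.map (specMapOver φ) (Cls0.of M hM)).exists_rep
    obtain ⟨g⟩ := (cov.map_of_eq_iff φ).mp e
    obtain ⟨g'⟩ := (i.map_cls_eq_iff ψ).mp (h.trans e)
    exact hW R' φ ψ _ _ g g' (LB.Isomorphic.refl _)
  · obtain ⟨r, hr, ψ, ξ', L, ⟨g⟩, ⟨g'⟩, ⟨e⟩⟩ := hW' p hp
    refine ⟨r, hr, ψ, ?_⟩
    obtain ⟨M', hM', e'⟩ :=
      (Cls0.map (specMapOver (IsScalarTower.toAlgHom k R (Localization.Away r)))
      (Cls0.of M hM)).exists_rep
    obtain ⟨g₁⟩ := (cov.map_of_eq_iff _).mp e'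
    rw [e', i.map_cls_eq_iff]
    exact ⟨g'.transIso (e.trans (g.targetIso g₁))⟩

/-- There are charts through every geometric point. -/
theorem exists_chart0 (cov : CurveCover c ε) :
    ∃ (ι : Type u) (i : ι → cov.Chart0), ∀ (K : Type u) [Field K] [IsAlgClosed K] [Algebra k K]
      (x : Cls0 c ε (specT k K)), ∃ (a : ι) (ψ : (i a).chart.Rc →ₐ[k] K),
        Cls0.map (specMapOver ψ) (i a).cls = x := by
  obtain ⟨ι, ch, hch⟩ := exists_charts cov.D
  choose M hM hiso using fun a =>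
    cov.exists_of_bundle (ch a).univ (ch a).evTrivial (ch a).fibreDegZero
  refine ⟨ι, fun a => ⟨ch a, M a, hM a, hiso a⟩, fun K _ _ _ x => ?_⟩
  obtain ⟨N, hN, rfl⟩ := x.exists_rep
  have hd : (cov.secOf N).deg = 0 := by
    have h := cov.fibreDegZero_secOf hN
    exact h K (AlgHom.id k K) _ (LB.Mor.id _)
  obtain ⟨a, ψ, L, ⟨g⟩, ⟨e⟩⟩ := hch K (cov.secOf N) hd
  refine ⟨a, ψ, ?_⟩
  exact (Chart0.map_cls_eq_iff (⟨ch a, M a, hM a, hiso a⟩ : cov.Chart0) ψ).mpr ⟨g.transIso e⟩

end CurveCover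

end Fermat.Agent.Jac

end
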