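import Fermat.Agent.Jac.Picard.Functor
import Fermat.Agent.Jac.Sep

/-!
# The representing scheme is smooth, proper and geometrically connected
-/

set_option autoImplicit false

universe u

noncomputable section

open CategoryTheory CategoryTheory.Limits AlgebraicGeometry AlgebraicGeometry.RelPicard
  NeronModelInfra
  TensorProduct

namespace Fermat.Agent.Jac.CurveCover

variable {k : Type u} [Field k] [IsAlgClosed k] {C : Scheme.{u}} {c : C ⟶ Spec (CommRingCat.of k)}
  [IsProper c] [SmoothOfRelativeDimension 1 c] [IsIntegral C]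
  {ε : SchemeHomOver (𝟙 (Spec (CommRingCat.of k))) c}

/-- A scheme with a universal class of degree zero. -/
def IsUniversal {J : Scheme.{u}} {f : J ⟶ Spec (CommRingCat.of k)} (P : Cls0 c ε f) : Prop :=
  ∀ {T : Scheme.{u}} (t : T ⟶ Spec (CommRingCat.of k)) (ζ : Cls0 c ε t),
    ∃! g : SchemeHomOver t f, Cls0.map g P = ζ

/-- There is a universal class of degree zero, on a smooth scheme. -/
theorem exists_universal_smooth (cov : CurveCover c ε) :
    ∃ (J : Scheme.{u}) (f : J ⟶ Spec (CommRingCat.of k)) (P : Cls0 c ε f),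
      IsUniversal P ∧ Smooth f := by
  obtain ⟨J, f, P, hP, e, he, -, hcov⟩ := (picAtlas cov).exists_representing
  refine ⟨J, f, P, fun {T} t ζ => hP t ζ, ?_⟩
  let 𝒰 : J.OpenCover :=
    Scheme.Cover.mkOfCovers (picAtlas cov).ι (picAtlas cov).X (fun i => (e i).1)
    (fun x => by
      obtain ⟨i, y, hy⟩ := Set.mem_iUnion.mp (hcov.ge (Set.mem_univ x))
      exact ⟨i, y, hy⟩)
    (fun i => he i)
  refine IsZariskiLocalAtSource.of_openCover (P := @Smooth) 𝒰 fun i => ?_
  show Smooth ((e i).1 ≫ f)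
  rw [(e i).2]
  exact (HasRingHomProperty.Spec_iff (P := @Smooth)).mpr
    (RingHom.smooth_algebraMap.mpr (cov.exists_chart0.choose_spec.choose i).chart.smooth)

variable {J : Scheme.{u}} {f : J ⟶ Spec (CommRingCat.of k)} {P : Cls0 c ε f}

omit [IsAlgClosed k] [IsProper c] [SmoothOfRelativeDimension 1 c] [IsIntegral C] in
/-- Two maps pulling a universal class back to the same class are equal. -/
theorem IsUniversal.hom_ext (hP : IsUniversal P) {T : Scheme.{u}} {t : T ⟶ Spec (CommRingCat.of k)}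
    {g g' : SchemeHomOver t f} (h : Cls0.map g P = Cls0.map g' P) : g = g' :=
  (hP t (Cls0.map g' P)).unique h rfl

/-- A proper geometrically integral scheme maps onto the representing scheme. -/
theorem IsUniversal.exists_surjective (cov : CurveCover c ε) (hP : IsUniversal P) :
    ∃ (F : Scheme.{u}) (g : F ⟶ J), Surjective g ∧ IsProper (g ≫ f) ∧
      GeometricallyIntegral (g ≫ f) := by
  obtain ⟨F, fF, hprop, -, hint, M, -, hdeg, -, hsurj⟩ := cov.exists_rigidifiedFamily
  have hM : FibrewiseAlgEquivZero M := (cov.fibrewiseAlgEquivZero_iff M).mpr hdeg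
  obtain ⟨g, hg, -⟩ := hP fF (Cls0.of M hM)
  refine ⟨F, g.1, ⟨fun x => ?_⟩, by rw [g.2]; exact hprop, by rw [g.2]; exact hint⟩
  let K : Type u := AlgebraicClosure (J.residueField x)
  let s : Spec (CommRingCat.of K) ⟶ J :=
    Spec.map (CommRingCat.ofHom (algebraMap (J.residueField x) K)) ≫ J.fromSpecResidueField x
  obtain ⟨_, hs⟩ := exists_algebra_specT (R := K) (s ≫ f)
  let sh : SchemeHomOver (specT k K) f := ⟨s, hs⟩
  obtain ⟨N, hN, hNP⟩ := (Cls0.map sh P).exists_rep
  have hd : (cov.secOf N).deg = 0 :=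
    cov.fibreDegZero_secOf hN K (AlgHom.id k K) _ (LB.Mor.id _)
  obtain ⟨s', hs'⟩ := hsurj K (cov.secOf N) hd
  have h1 : Cls0.map s' (Cls0.of M hM) = Cls0.map sh P := by
    rw [hNP, Cls0.map_of]
    exact Cls0.of_eq_iff.mpr ((cov.sec_isomorphic_iff _ _ _ _).mpr hs')
  have h2 : homComp s' g = sh := hP.hom_ext (by rw [Cls0.map_comp, hg, h1])
  refine ⟨s'.1.base default, ?_⟩
  have h3 : (s'.1 ≫ g.1).base default = sh.1.base default := by rw [← h2]; rfl
  exact h3.trans (Scheme.fromSpecResidueField_apply x _)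

/-- The representing scheme is separated. -/
theorem IsUniversal.isSeparated (cov : CurveCover c ε) (hP : IsUniversal P) [Smooth f] :
    IsSeparated f := by
  have : IsLocallyNoetherian J := LocallyOfFiniteType.isLocallyNoetherian f
  refine IsSeparated.of_valuativeCriterion f fun S => ⟨?_⟩
  rintro ⟨l₁, h₁, h₁'⟩ ⟨l₂, h₂, h₂'⟩
  congr
  obtain ⟨_, hR⟩ := exists_algebra_specT (R := S.R) S.i₂
  let _ : Algebra k S.K := Algebra.compHom S.K (algebraMap k S.R)
  have : IsScalarTower k S.R S.K := IsScalarTower.of_algebraMap_eq fun _ => rfl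
  let a₁ : SchemeHomOver (specT k S.R) f := ⟨l₁, h₁'.trans hR⟩
  let a₂ : SchemeHomOver (specT k S.R) f := ⟨l₂, h₂'.trans hR⟩
  let φ := IsScalarTower.toAlgHom k S.R S.K
  obtain ⟨M₁, hM₁, e₁⟩ := (Cls0.map a₁ P).exists_rep
  obtain ⟨M₂, hM₂, e₂⟩ := (Cls0.map a₂ P).exists_rep
  have heq : Cls0.map (specMapOver φ) (Cls0.of M₁ hM₁) =
      Cls0.map (specMapOver φ) (Cls0.of M₂ hM₂) := by
    rw [← e₁, ← e₂, Cls0.map_map, Cls0.map_map]
    exact Cls0.map_congr (h₁.trans h₂.symm) P
  obtain ⟨M', hM', e'⟩ := (Cls0.map (specMapOver φ) (Cls0.of M₁ hM₁)).exists_rep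
  obtain ⟨g₁⟩ := (cov.map_of_eq_iff φ).mp e'
  obtain ⟨g₂⟩ := (cov.map_of_eq_iff φ).mp (heq.symm.trans e')
  have hiso : (cov.secOf M₁).Isomorphic (cov.secOf M₂) :=
    LB.isomorphic_of_generic S.K (cov.fibreDegZero_secOf hM₁) (cov.fibreDegZero_secOf hM₂)
      g₁ g₂ (LB.Isomorphic.refl _)
  have h12 : a₁ = a₂ := hP.hom_ext
    (e₁.trans ((Cls0.of_eq_iff.mpr ((cov.sec_isomorphic_iff _ _ _ _).mpr hiso)).trans e₂.symm))
  exact congrArg Subtype.val h12

/-- The representing scheme is proper and geometrically connected. -/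
theorem IsUniversal.isProper_and_geometricallyConnected (cov : CurveCover c ε) (hP : IsUniversal P)
    [Smooth f] : IsProper f ∧ GeometricallyConnected f := by
  obtain ⟨F, g, hg, hprop, hint⟩ := hP.exists_surjective cov
  have : IsSeparated f := hP.isSeparated cov
  have : UniversallyClosed f := UniversallyClosed.of_comp_surjective g f
  refine ⟨{}, ⟨fun K _ y Z fst snd h => ?_⟩⟩
  let ψ : pullback (g ≫ f) y ⟶ Z :=
    h.lift (pullback.fst (g ≫ f) y ≫ g) (pullback.snd (g ≫ f) y)
      (by rw [Category.assoc]; exact pullback.condition)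
  have hψ : IsPullback (pullback.fst (g ≫ f) y) ψ g fst :=
    IsPullback.of_bot' (IsPullback.of_hasPullback (g ≫ f) y) h
  have hsurj : Surjective ψ := MorphismProperty.of_isPullback (P := @Surjective) hψ hg
  have : IsIntegral (pullback (g ≫ f) y) :=
    GeometricallyIntegral.geometrically_isIntegral y _ _ (IsPullback.of_hasPullback (g ≫ f) y)
  exact hsurj.surj.connectedSpace ψ.continuous

end Fermat.Agent.Jac.CurveCover

end
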